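/-
S25 package TWIST, leaf G3 (helper3430): the tensor product of glued modules commutes with
base change.  `isBC_tensor` has the exact name and statement of the leaf in `TWIST/G3.lean`
(captain helper9130).  Proof: curry the universal property twice.
-/
import Fermat.Agent.S25.TWIST.Defs

set_option autoImplicit false

universe u

namespace Fermat.Agent.S25.TWIST.G3.H3430

open scoped TensorProduct

open GluedModule Ten

/-! ### The universal property of a semilinear map, and its tensor product -/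

section Univ

variable {B B' : Type u} [CommRing B] [CommRing B'] (ψ : B →+* B')

/-- `j : N → N'` (additive, `ψ`-semilinear) has the universal property of `B' ⊗[B] N`. -/
def IsUniv {N N' : Type u} [AddCommGroup N] [Module B N] [AddCommGroup N'] [Module B' N']
    (j : N →+ N') : Prop :=
  ∀ (Q : Type u) [AddCommGroup Q] [Module B' Q] (h : N →+ Q),
    (∀ (b : B) (n : N), h (b • n) = ψ b • h n) →
      ∃! h' : N' →ₗ[B'] Q, ∀ n, h' (j n) = h n

variable {N N' M M' : Type u} [AddCommGroup N] [Module B N] [AddCommGroup N'] [Module B' N']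
  [AddCommGroup M] [Module B M] [AddCommGroup M'] [Module B' M']
  (j : N →+ N') (j' : M →+ M')
  (hj : ∀ (b : B) (n : N), j (b • n) = ψ b • j n)
  (hj' : ∀ (b : B) (m : M), j' (b • m) = ψ b • j' m)

/-- The tensor product of two universal semilinear maps is universal. -/
theorem isUniv_tensor (hu : IsUniv ψ j) (hu' : IsUniv ψ j') :
    IsUniv ψ (tensorAddHom ψ j j' (map_add j) (map_add j') hj hj') := by
  intro Q _ _ h hh
  -- the partial maps `m ↦ h (n ⊗ m)`
  let hn : N → (M →+ Q) := fun n =>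
    { toFun := fun m => h (n ⊗ₜ[B] m)
      map_zero' := by rw [TensorProduct.tmul_zero, map_zero]
      map_add' := fun a b => by rw [TensorProduct.tmul_add, map_add] }
  have hn_smul : ∀ (n : N) (b : B) (m : M), hn n (b • m) = ψ b • hn n m := fun n b m => by
    change h (n ⊗ₜ[B] (b • m)) = ψ b • h (n ⊗ₜ[B] m)
    rw [← hh, TensorProduct.smul_tmul', TensorProduct.smul_tmul]
  choose g hg hguniq using fun n => hu' Q (hn n) (hn_smul n)
  have hg_apply : ∀ (n : N) (m : M), g n (j' m) = h (n ⊗ₜ[B] m) := fun n m => hg n m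
  -- `n ↦ g n` is additive and semilinear
  let G : N →+ (M' →ₗ[B'] Q) :=
    { toFun := g
      map_zero' := by
        symm
        apply hguniq
        intro m
        change (0 : Q) = h ((0 : N) ⊗ₜ[B] m)
        rw [TensorProduct.zero_tmul, map_zero]
      map_add' := fun a b => by
        symm
        apply hguniq
        intro m
        change g a (j' m) + g b (j' m) = h ((a + b) ⊗ₜ[B] m)
        rw [hg_apply, hg_apply, TensorProduct.add_tmul, map_add] }
  have hG_smul : ∀ (b : B) (n : N), G (b • n) = ψ b • G n := fun b n => by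
    symm
    apply hguniq
    intro m
    change ψ b • g n (j' m) = h ((b • n) ⊗ₜ[B] m)
    rw [hg_apply, ← hh, TensorProduct.smul_tmul']
  obtain ⟨H, hH, hHuniq⟩ := hu (M' →ₗ[B'] Q) G hG_smul
  have key : ∀ t : N ⊗[B] M,
      TensorProduct.lift H (tensorAddHom ψ j j' (map_add j) (map_add j') hj hj' t) = h t := by
    intro t
    induction t using TensorProduct.induction_on with
    | zero => simp
    | tmul n m =>
      rw [tensorAddHom_tmul, TensorProduct.lift.tmul, hH]
      exact hg_apply n m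
    | add x y hx hy => rw [map_add, map_add, hx, hy, map_add]
  refine ⟨TensorProduct.lift H, key, ?_⟩
  intro h'' hh''
  have hc : TensorProduct.curry h'' = H := by
    apply hHuniq
    intro n
    apply hguniq
    intro m
    change h'' (j n ⊗ₜ[B'] j' m) = h (n ⊗ₜ[B] m)
    rw [← hh'' (n ⊗ₜ[B] m), tensorAddHom_tmul]
  apply TensorProduct.ext'
  intro x y
  rw [TensorProduct.lift.tmul, ← hc, TensorProduct.curry_apply]

end Univ

/-! ### Base change data of a tensor product -/

section BC

variable {R R' : Type u} [CommRing R] [CommRing R'] {φ : R →+* R'}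
  {𝔹 : TwoChart R} {𝔹' : TwoChart R'} {Ψ : TwoChart.Hom φ 𝔹 𝔹'}
  {L M : GluedModule 𝔹} {L' M' : GluedModule 𝔹'}

/-- Base change data of `L` and `M` give base change data of `L ⊗ M` (any morphism of
two-charts). -/
noncomputable def baseChangeDataTensor (D : BaseChangeData Ψ L L') (E : BaseChangeData Ψ M M') :
    BaseChangeData Ψ (tensor L M) (tensor L' M') where
  j₁ := tensorAddHom Ψ.ψ₁ D.j₁ E.j₁ (map_add _) (map_add _) D.j₁_smul E.j₁_smul
  j₂ := tensorAddHom Ψ.ψ₂ D.j₂ E.j₂ (map_add _) (map_add _) D.j₂_smul E.j₂_smul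
  j₁₂ := tensorAddHom Ψ.ψ₁₂ D.j₁₂ E.j₁₂ (map_add _) (map_add _) D.j₁₂_smul E.j₁₂_smul
  j₁_smul := tensorAddHom_smul Ψ.ψ₁ D.j₁ E.j₁ (map_add _) (map_add _) D.j₁_smul E.j₁_smul
  j₂_smul := tensorAddHom_smul Ψ.ψ₂ D.j₂ E.j₂ (map_add _) (map_add _) D.j₂_smul E.j₂_smul
  j₁₂_smul :=
    tensorAddHom_smul Ψ.ψ₁₂ D.j₁₂ E.j₁₂ (map_add _) (map_add _) D.j₁₂_smul E.j₁₂_smul
  comm₁ := fun t => by
    change tensorAddHom Ψ.ψ₁₂ D.j₁₂ E.j₁₂ (map_add _) (map_add _) D.j₁₂_smul E.j₁₂_smul
        (tensorι₁ L M t) =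
      tensorι₁ L' M'
        (tensorAddHom Ψ.ψ₁ D.j₁ E.j₁ (map_add _) (map_add _) D.j₁_smul E.j₁_smul t)
    induction t using TensorProduct.induction_on with
    | zero => simp
    | tmul l m =>
      rw [tensorι₁_tmul, tensorAddHom_tmul, tensorAddHom_tmul, tensorι₁_tmul, D.comm₁, E.comm₁]
    | add x y hx hy => rw [map_add, map_add, hx, hy, map_add, map_add]
  comm₂ := fun t => by
    change tensorAddHom Ψ.ψ₁₂ D.j₁₂ E.j₁₂ (map_add _) (map_add _) D.j₁₂_smul E.j₁₂_smul
        (tensorι₂ L M t) =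
      tensorι₂ L' M'
        (tensorAddHom Ψ.ψ₂ D.j₂ E.j₂ (map_add _) (map_add _) D.j₂_smul E.j₂_smul t)
    induction t using TensorProduct.induction_on with
    | zero => simp
    | tmul l m =>
      rw [tensorι₂_tmul, tensorAddHom_tmul, tensorAddHom_tmul, tensorι₂_tmul, D.comm₂, E.comm₂]
    | add x y hx hy => rw [map_add, map_add, hx, hy, map_add, map_add]
  univ₁ := isUniv_tensor Ψ.ψ₁ D.j₁ E.j₁ D.j₁_smul E.j₁_smul D.univ₁ E.univ₁
  univ₂ := isUniv_tensor Ψ.ψ₂ D.j₂ E.j₂ D.j₂_smul E.j₂_smul D.univ₂ E.univ₂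

/-- The tensor product commutes with base change, for any morphism of two-charts. -/
theorem isBC_tensor_of_hom (hL : IsBC Ψ L L') (hM : IsBC Ψ M M') :
    IsBC Ψ (tensor L M) (tensor L' M') := by
  obtain ⟨D⟩ := hL
  obtain ⟨E⟩ := hM
  exact ⟨baseChangeDataTensor D E⟩

end BC

variable {k : Type u} [Field k] (𝒞 : CurveData k)

variable {R R' : Type u} [CommRing R] [Algebra k R] [CommRing R'] [Algebra k R']

/-- (G3) The tensor product commutes with base change. -/
theorem isBC_tensor (φ : R →ₐ[k] R') (L M : GluedModule (𝒞.chart R))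
    (L' M' : GluedModule (𝒞.chart R')) (hL : IsBC (𝒞.chartHom φ) L L')
    (hM : IsBC (𝒞.chartHom φ) M M') : IsBC (𝒞.chartHom φ) (tensor L M) (tensor L' M') :=
  isBC_tensor_of_hom hL hM

end Fermat.Agent.S25.TWIST.G3.H3430
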